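import Fermat.Agent.S14_helper12.LocalCountFinal

/-!
# T14 / SI-ASM-5 (helper12): index of the intersection of the local `p`-th power subgroups

For `S ⊇ {v ∣ p}`:  `[Kˣ : ⋂_{v ∈ S} localPowSubgroup p v] ≤ p ^ (2 |S| + [K : ℚ])` (and `≠ 0`).
-/

set_option autoImplicit false

open NumberField IsDedekindDomain

namespace Fermat.Agent.S14.SI.Asm

open Fermat.Agent.S14.SI

variable {K : Type*} [Field K] [NumberField K]

/-- `ordP p v` is the exponent used by `maxPowDividing`. -/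
lemma count_eq_ordP {p : ℕ} (hp : p ≠ 0) (v : HeightOneSpectrum (𝓞 K)) :
    (Associates.mk v.asIdeal).count (Associates.mk (Ideal.span {(p : 𝓞 K)})).factors =
      ordP p v.asIdeal := by
  have hp' : (p : 𝓞 K) ≠ 0 := Nat.cast_ne_zero.mpr hp
  have h1 := v.intValuation_if_neg hp'
  have h2 := v.intValuation_eq_exp_neg_multiplicity hp'
  rw [h1, WithZero.exp_inj, neg_inj, Nat.cast_inj] at h2
  rw [h2, ordP]

/-- `∏_{v ∈ S} N(v) ^ ord_v(p) = p ^ [K : ℚ]` when `S` contains the primes above `p`. -/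
lemma prod_absNorm_pow_ordP {p : ℕ} (hp : p ≠ 0) (S : Finset (HeightOneSpectrum (𝓞 K)))
    (hS : ∀ v : HeightOneSpectrum (𝓞 K), (p : 𝓞 K) ∈ v.asIdeal → v ∈ S) :
    ∏ v ∈ S, Ideal.absNorm v.asIdeal ^ ordP p v.asIdeal = p ^ Module.finrank ℚ K := by
  have hp' : (p : 𝓞 K) ≠ 0 := Nat.cast_ne_zero.mpr hp
  have hI : Ideal.span {(p : 𝓞 K)} ≠ 0 := by
    rw [Ne, Ideal.zero_eq_bot, Ideal.span_singleton_eq_bot]
    exact hp'
  have hfact := Ideal.finprod_heightOneSpectrum_factorization hI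
  have hsupp := Ideal.hasFiniteMulSupport hI
  have hnorm := congrArg Ideal.absNorm hfact
  rw [map_finprod _ hsupp, Ideal.absNorm_span_natCast, RingOfIntegers.rank] at hnorm
  rw [← hnorm]
  have hterm : ∀ v : HeightOneSpectrum (𝓞 K),
      Ideal.absNorm (v.maxPowDividing (Ideal.span {(p : 𝓞 K)})) =
        Ideal.absNorm v.asIdeal ^ ordP p v.asIdeal := by
    intro v
    rw [HeightOneSpectrum.maxPowDividing, map_pow, count_eq_ordP hp v]
  simp_rw [hterm]
  symm
  apply finprod_eq_prod_of_mulSupport_subset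
  intro v hv
  rw [Function.mem_mulSupport] at hv
  apply hS v
  by_contra hmem
  apply hv
  have : ordP p v.asIdeal = 0 := by
    rw [ordP]
    apply multiplicity_eq_zero.mpr
    rw [Ideal.dvd_span_singleton]
    exact hmem
  rw [this, pow_zero]

/-- **SI-ASM-5**. -/
theorem index_iInf_localPow {p : ℕ} (hp : p.Prime) (ζ : K) (hζ : IsPrimitiveRoot ζ p)
    (S : Finset (HeightOneSpectrum (𝓞 K)))
    (hS : ∀ v : HeightOneSpectrum (𝓞 K), (p : 𝓞 K) ∈ v.asIdeal → v ∈ S) :
    (⨅ v ∈ S, localPowSubgroup p v.asIdeal).index ≠ 0 ∧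
      (⨅ v ∈ S, localPowSubgroup p v.asIdeal).index ≤ p ^ (2 * S.card + Module.finrank ℚ K) := by
  have hidx : ∀ v : HeightOneSpectrum (𝓞 K), (localPowSubgroup p v.asIdeal).index =
      p ^ 2 * Ideal.absNorm v.asIdeal ^ ordP p v.asIdeal := by
    intro v
    rw [Subgroup.index_eq_card]
    exact Fermat.Agent.S14_helper12.card_quotient_localPowSubgroup' hp ζ hζ v.asIdeal v.ne_bot
  have hne : ∀ v : HeightOneSpectrum (𝓞 K), (localPowSubgroup p v.asIdeal).index ≠ 0 := by
    intro v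
    rw [hidx v]
    have h1 : 0 < Ideal.absNorm v.asIdeal := by
      rw [Nat.pos_iff_ne_zero, Ne, Ideal.absNorm_eq_zero_iff]
      exact v.ne_bot
    exact (Nat.mul_pos (pow_pos hp.pos 2) (pow_pos h1 _)).ne'
  have hrw : (⨅ v ∈ S, localPowSubgroup p v.asIdeal) =
      ⨅ v : S, localPowSubgroup p (v : HeightOneSpectrum (𝓞 K)).asIdeal := by
    rw [iInf_subtype']
  rw [hrw]
  refine ⟨Subgroup.index_iInf_ne_zero fun v => hne v, ?_⟩
  refine (Subgroup.index_iInf_le _).trans ?_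
  rw [Finset.prod_coe_sort S (fun v => (localPowSubgroup p v.asIdeal).index)]
  simp_rw [hidx]
  rw [Finset.prod_mul_distrib, Finset.prod_const, prod_absNorm_pow_ordP hp.ne_zero S hS,
    ← pow_mul, ← pow_add]


/-- **SI-ASM-5** in the exact shape of `Asm/Skeleton.lean` (`calK p S` unfolded). -/
theorem index_calK' {p : ℕ} (hp : p.Prime) (hp2 : p ≠ 2) (ζ : K) (hζ : IsPrimitiveRoot ζ p)
    (S : Finset (HeightOneSpectrum (𝓞 K)))
    (hSp : ∀ v : HeightOneSpectrum (𝓞 K), (p : 𝓞 K) ∈ v.asIdeal → v ∈ S) :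
    (⨅ v : S, localPowSubgroup p v.1.asIdeal).index ≠ 0 ∧
      (⨅ v : S, localPowSubgroup p v.1.asIdeal).index ≤
        p ^ (2 * S.card + 2 * InfinitePlace.nrComplexPlaces K) := by
  have h3 : 3 ≤ p := by
    have := hp.two_le
    omega
  have htc : IsTotallyComplex K := by
    refine ⟨fun w => ?_⟩
    rw [← InfinitePlace.not_isReal_iff_isComplex]
    intro hw
    let ψ : K →+* ℝ := InfinitePlace.embedding_of_isReal hw
    have hψ : IsPrimitiveRoot (ψ ζ) p := hζ.map_of_injective ψ.injective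
    have h1 : |ψ ζ| = 1 := by
      have h2 : |ψ ζ| ^ p = 1 := by rw [← abs_pow, hψ.pow_eq_one, abs_one]
      exact (pow_eq_one_iff_of_nonneg (abs_nonneg _) (by omega)).mp h2
    have h4 : (ψ ζ) ^ 2 = 1 := by
      rw [← sq_abs, h1, one_pow]
    have := hψ.dvd_of_pow_eq_one 2 h4
    have := Nat.le_of_dvd (by norm_num) this
    omega
  have hfin : Module.finrank ℚ K = 2 * InfinitePlace.nrComplexPlaces K :=
    IsTotallyComplex.finrank (K := K)
  have h := index_iInf_localPow hp ζ hζ S hSp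
  rw [iInf_subtype', hfin] at h
  exact h

end Fermat.Agent.S14.SI.Asm
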