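/-
T14 / SI-ASM-4 (helper79): a prime of `K` all of whose decomposition groups in the Galois extension
`L/K` are trivial is the relative norm of a prime of `L`, hence its class lies in `normClasses K L`.
Immediate corollary of `KL.exists_prime_relNorm_eq` (SI/KL/Norm.lean).
Stated with the class written out (`= Asm.cls v` by `rfl`), so that this file does not depend on
`Asm/Defs.lean` / `Asm/Skeleton.lean`.
-/
import Fermat.Agent.S14.Defs
import Fermat.Agent.S14.SI.KL.Norm

set_option autoImplicit false

open NumberField IsDedekindDomain nonZeroDivisors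

namespace Fermat.Agent.S14.SI.Asm

variable {K : Type*} [Field K] [NumberField K]
variable (L : Type*) [Field L] [NumberField L] [Algebra K L]

/-- (ASM-4), with `cls v` unfolded. -/
theorem mk0_mem_normClasses_of_split_kl [IsGalois K L] (v : HeightOneSpectrum (𝓞 K))
    (h : ∀ P : Ideal (𝓞 L), P.IsPrime → P.under (𝓞 K) = v.asIdeal → ∀ τ : L ≃ₐ[K] L,
      (∀ z : 𝓞 L, z ∈ P → τ • z ∈ P) → τ = 1) :
    ClassGroup.mk0 ⟨v.asIdeal, mem_nonZeroDivisors_of_ne_zero v.ne_bot⟩ ∈ normClasses K L := by
  have := v.isPrime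
  obtain ⟨P, -, hP0, hPn⟩ := KL.exists_prime_relNorm_eq (N := L) v.asIdeal v.ne_bot
    (fun P hP _ hPv τ hτ => h P hP hPv τ hτ)
  refine Subgroup.subset_closure ⟨⟨P, mem_nonZeroDivisors_of_ne_zero hP0⟩, ?_⟩
  simp only [MonoidHom.coe_comp, Function.comp_apply]
  congr 1
  exact Subtype.ext hPn

end Fermat.Agent.S14.SI.Asm
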