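/-
T14 / SI-ASM (helper55): shared definitions for the final count of the second inequality.
-/
import Fermat.Agent.S14.SI.Defs
import Fermat.Agent.S14.SI.Bridge

set_option autoImplicit false

open NumberField IsDedekindDomain nonZeroDivisors

namespace Fermat.Agent.S14.SI.Asm

variable {K : Type*} [Field K] [NumberField K]

/-- the class of a prime -/
noncomputable def cls (v : HeightOneSpectrum (𝓞 K)) : ClassGroup (𝓞 K) :=
  ClassGroup.mk0 ⟨v.asIdeal, mem_nonZeroDivisors_of_ne_zero v.ne_bot⟩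

/-- `x ↦ ∏_{v ∈ S} [v]^(ord_v x)` -/
noncomputable def phi (S : Finset (HeightOneSpectrum (𝓞 K))) : Kˣ →* ClassGroup (𝓞 K) where
  toFun x := ∏ v ∈ S, cls v ^ (Multiplicative.toAdd (Bridge.ord v x))
  map_one' := by simp
  map_mul' x y := by
    simp only [map_mul, toAdd_mul, zpow_add, Finset.prod_mul_distrib]

lemma phi_apply (S : Finset (HeightOneSpectrum (𝓞 K))) (x : Kˣ) :
    phi S x = ∏ v ∈ S, cls v ^ (Multiplicative.toAdd (Bridge.ord v x)) := rfl

/-- the subgroup of elements which are local `p`-th powers at all `v ∈ S` -/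
noncomputable def calK (p : ℕ) (S : Finset (HeightOneSpectrum (𝓞 K))) : Subgroup Kˣ :=
  ⨅ v : S, localPowSubgroup p v.1.asIdeal

omit [NumberField K] in
lemma mem_calK {p : ℕ} {S : Finset (HeightOneSpectrum (𝓞 K))} {x : Kˣ} :
    x ∈ calK p S ↔ ∀ v ∈ S, IsLocalPow p v.asIdeal (prec p v.asIdeal) x := by
  simp only [calK, Subgroup.mem_iInf, Subtype.forall]
  rfl

end Fermat.Agent.S14.SI.Asm
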