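/-
T14 / SI-ASM (helper55): (ASM-2) surjectivity of `phi S`, (ASM-6) index of `p`-th powers in `S'`-units.
-/
import Fermat.Agent.S14.SI.Asm.Defs
import Fermat.Agent.S14.SI.Approx
import Fermat.Agent.S14.SI.SUnits

set_option autoImplicit false

open NumberField IsDedekindDomain nonZeroDivisors

namespace Fermat.Agent.S14.SI.Asm

variable {K : Type*} [Field K] [NumberField K]

/-- an element with prescribed orders at the primes of `S` -/
theorem exists_ord_eq_on (S : Finset (HeightOneSpectrum (𝓞 K)))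
    (n : HeightOneSpectrum (𝓞 K) → Multiplicative ℤ) :
    ∃ y : Kˣ, ∀ v ∈ S, Bridge.ord v y = n v := by
  choose x hx using fun v : HeightOneSpectrum (𝓞 K) => Bridge.exists_ord_eq v (n v)
  obtain ⟨y, hy⟩ := exists_approx S x (fun _ => 0)
  refine ⟨y, fun v hv => ?_⟩
  have h1 : IsUnitAt v.asIdeal (y / x v) := hy v hv
  rw [Bridge.isUnitAt_iff_ord, map_div, div_eq_one] at h1
  rw [h1, hx]

/-- (ASM-2) surjectivity when `S` generates the class group -/
theorem phi_surjective (S : Finset (HeightOneSpectrum (𝓞 K)))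
    (hS : Subgroup.closure (Set.range fun v : S =>
        ClassGroup.mk0 ⟨v.1.asIdeal, mem_nonZeroDivisors_of_ne_zero v.1.ne_bot⟩) = ⊤) :
    Function.Surjective (phi S) := by
  classical
  rw [← MonoidHom.range_eq_top, eq_top_iff, ← hS, Subgroup.closure_le]
  rintro _ ⟨⟨v, hv⟩, rfl⟩
  obtain ⟨y, hy⟩ := exists_ord_eq_on S
    (fun w => if w = v then Multiplicative.ofAdd (1 : ℤ) else 1)
  refine ⟨y, ?_⟩
  rw [phi_apply, Finset.prod_eq_single v]
  · rw [hy v hv, if_pos rfl]
    simp [cls]
  · intro w hw hwv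
    rw [hy w hw, if_neg hwv]
    simp
  · intro h; exact absurd hv h

/-- (ASM-6) index of the `p`-th powers in the `S'`-units, in `relIndex` form -/
theorem relIndex_of_key {p : ℕ} (hp : p.Prime) (hp2 : p ≠ 2) (ζ : K) (hζ : IsPrimitiveRoot ζ p)
    (S' : Finset (HeightOneSpectrum (𝓞 K))) (H : Subgroup Kˣ)
    (hpow : ∀ y : Kˣ, y ^ p ∈ H)
    (hkey : ∀ x ∈ (S' : Set (HeightOneSpectrum (𝓞 K))).unit K, x ∈ H → ∃ y : Kˣ, y ^ p = x) :
    H.relIndex ((S' : Set (HeightOneSpectrum (𝓞 K))).unit K) =
      p ^ (S'.card + InfinitePlace.nrComplexPlaces K) := by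
  set U := (S' : Set (HeightOneSpectrum (𝓞 K))).unit K with hU
  have hsub : H.subgroupOf U = (powMonoidHom p : U →* U).range := by
    ext u
    rw [Subgroup.mem_subgroupOf, MonoidHom.mem_range]
    constructor
    · intro hu
      obtain ⟨y, hy⟩ := hkey (u : Kˣ) u.2 hu
      have hyU : y ∈ U := by
        rw [hU, Bridge.mem_unit_iff]
        intro v hv
        have huv := (Bridge.mem_unit_iff _ _).1 u.2 v hv
        rw [Bridge.isUnitAt_iff_ord] at huv ⊢
        rw [← hy, map_pow] at huv
        have h3 : p • Multiplicative.toAdd (Bridge.ord v y) = 0 := by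
          have := congrArg Multiplicative.toAdd huv
          simpa using this
        have h4 : Multiplicative.toAdd (Bridge.ord v y) = 0 := by
          rcases smul_eq_zero.1 h3 with h5 | h5
          · exact absurd h5 hp.ne_zero
          · exact h5
        exact Multiplicative.toAdd.injective h4
      refine ⟨⟨y, hyU⟩, ?_⟩
      apply Subtype.ext
      simpa using hy
    · rintro ⟨w, rfl⟩
      have : ((powMonoidHom p : U →* U) w : Kˣ) = (w : Kˣ) ^ p := by simp
      rw [this]
      exact hpow _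
  rw [Subgroup.relIndex, hsub, Subgroup.index_eq_card]
  exact card_sUnit_quotient_pow hp hp2 ζ hζ S'

end Fermat.Agent.S14.SI.Asm
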