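/-
T14 / SI-ASM-1 (helper42): principal fractional ideals are trivial in the class group:
`phi S x = 1` for `x` an `S`-unit.  Statement VERBATIM from `Asm/Skeleton.lean`
(`phi_eq_one_of_mem_unit`), proved here under the name `phi_eq_one_of_mem_unit'`.
Also exported: `count_spanSingleton_eq_ord` (`FractionalIdeal.count K v (x) = ord_v x`).
Route: `FractionalIdeal.finprod_heightOneSpectrum_factorization'` for `spanSingleton x`,
the count is the order (via `count_well_defined` + `intValuation_if_neg`), the support lies in `S`,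
and `ClassGroup.mk` kills `toPrincipalIdeal x`.
-/
import Fermat.Agent.S14.SI.Asm.Defs

set_option autoImplicit false

open NumberField IsDedekindDomain nonZeroDivisors

namespace Fermat.Agent.S14.SI.Asm

variable {K : Type*} [Field K] [NumberField K]

/-- the `v`-adic count of a principal fractional ideal is the order of its generator -/
theorem count_spanSingleton_eq_ord (v : HeightOneSpectrum (𝓞 K)) (x : Kˣ) :
    FractionalIdeal.count K v (FractionalIdeal.spanSingleton (𝓞 K)⁰ (x : K)) =
      Multiplicative.toAdd (Bridge.ord v x) := by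
  classical
  obtain ⟨a, b, hb, hab⟩ := IsFractionRing.div_surjective (A := 𝓞 K) (x : K)
  have hb0 : b ≠ 0 := nonZeroDivisors.ne_zero hb
  have ha0 : a ≠ 0 := by
    rintro rfl
    rw [map_zero, zero_div] at hab
    exact x.ne_zero hab.symm
  have hbK : algebraMap (𝓞 K) K b ≠ 0 := by
    rwa [Ne, FaithfulSMul.algebraMap_eq_zero_iff]
  have hI : FractionalIdeal.spanSingleton (𝓞 K)⁰ (x : K) ≠ 0 := by
    rw [Ne, FractionalIdeal.spanSingleton_eq_zero_iff]; exact x.ne_zero
  have h_aJ : FractionalIdeal.spanSingleton (𝓞 K)⁰ (x : K) =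
      FractionalIdeal.spanSingleton (𝓞 K)⁰ ((algebraMap (𝓞 K) K) b)⁻¹ *
        ((Ideal.span {a} : Ideal (𝓞 K)) : FractionalIdeal (𝓞 K)⁰ K) := by
    rw [FractionalIdeal.coeIdeal_span_singleton, FractionalIdeal.spanSingleton_mul_spanSingleton,
      ← hab, div_eq_inv_mul]
  rw [FractionalIdeal.count_well_defined K v hI h_aJ]
  have hval : v.valuation K (x : K) = v.intValuation a / v.intValuation b := by
    rw [← hab, map_div₀, v.valuation_of_algebraMap, v.valuation_of_algebraMap]
  rw [v.intValuation_if_neg ha0, v.intValuation_if_neg hb0, Bridge.valuation_eq] at hval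
  set m := (Associates.mk v.asIdeal).count (Associates.mk (Ideal.span {a} : Ideal (𝓞 K))).factors
  set n := (Associates.mk v.asIdeal).count (Associates.mk (Ideal.span {b} : Ideal (𝓞 K))).factors
  rw [← WithZero.exp_sub] at hval
  have h2 : (((Bridge.ord v x)⁻¹ : Multiplicative ℤ) : WithZero (Multiplicative ℤ)) =
      WithZero.exp (-(Multiplicative.toAdd (Bridge.ord v x))) := by
    rfl
  rw [h2] at hval
  have := WithZero.exp_injective hval
  omega

end Fermat.Agent.S14.SI.Asm

namespace Fermat.Agent.S14.SI.Asm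

variable {K : Type*} [Field K] [NumberField K]

/-- (ASM-1) principal ideals are trivial in the class group -/
theorem phi_eq_one_of_mem_unit' (S : Finset (HeightOneSpectrum (𝓞 K))) (x : Kˣ)
    (hx : x ∈ (S : Set (HeightOneSpectrum (𝓞 K))).unit K) : phi S x = 1 := by
  classical
  -- the exponents
  set n : HeightOneSpectrum (𝓞 K) → ℤ := fun v => Multiplicative.toAdd (Bridge.ord v x) with hn
  have hn0 : ∀ v, v ∉ S → n v = 0 := by
    intro v hv
    have h1 : Bridge.ord v x = 1 :=
      (Bridge.isUnitAt_iff_ord v x).1 (Bridge.isUnitAt_of_mem_unit hx (by simpa using hv))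
    simp [hn, h1]
  -- factorisation of the principal fractional ideal
  have hI : FractionalIdeal.spanSingleton (𝓞 K)⁰ (x : K) ≠ 0 := by
    rw [Ne, FractionalIdeal.spanSingleton_eq_zero_iff]; exact x.ne_zero
  have hfact := FractionalIdeal.finprod_heightOneSpectrum_factorization' (K := K) hI
  simp only [count_spanSingleton_eq_ord] at hfact
  have hfin : ∏ v ∈ S, ((v.asIdeal : FractionalIdeal (𝓞 K)⁰ K)) ^ (n v) =
      FractionalIdeal.spanSingleton (𝓞 K)⁰ (x : K) := by
    rw [← hfact]
    symm
    apply finprod_eq_prod_of_mulSupport_subset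
    intro v hv
    by_contra hvS
    apply hv
    show ((v.asIdeal : FractionalIdeal (𝓞 K)⁰ K)) ^ (n v) = 1
    rw [hn0 v (by simpa using hvS), zpow_zero]
  -- in the group of units
  let u : HeightOneSpectrum (𝓞 K) → (FractionalIdeal (𝓞 K)⁰ K)ˣ := fun v =>
    FractionalIdeal.mk0 K ⟨v.asIdeal, mem_nonZeroDivisors_of_ne_zero v.ne_bot⟩
  have hu : ∏ v ∈ S, (u v) ^ (n v) = toPrincipalIdeal (𝓞 K) K x := by
    apply Units.ext
    rw [coe_toPrincipalIdeal, ← hfin, Units.coe_prod]
    apply Finset.prod_congr rfl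
    intro v _
    rw [Units.val_zpow_eq_zpow_val]
    rfl
  have h1 : ClassGroup.mk K (toPrincipalIdeal (𝓞 K) K x) = 1 := by
    rw [ClassGroup.mk_eq_one_iff, coe_toPrincipalIdeal, FractionalIdeal.coe_spanSingleton]
    exact ⟨⟨(x : K), rfl⟩⟩
  rw [← hu, map_prod] at h1
  rw [phi_apply, ← h1]
  apply Finset.prod_congr rfl
  intro v _
  rw [map_zpow, ClassGroup.mk_mk0]
  rfl

end Fermat.Agent.S14.SI.Asm
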