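/-
T14 / SI-ASM (helper55): small lemmas for the final count + (ASM-3).
-/
import Fermat.Agent.S14.SI.Asm.Defs
import Fermat.Agent.S14.CR.NormTower

set_option autoImplicit false

open NumberField IsDedekindDomain nonZeroDivisors

namespace Fermat.Agent.S14.SI.Asm

variable {K : Type*} [Field K] [NumberField K]

/-- every element of `Kˣ` is an `S₀`-unit for a finite `S₀` -/
theorem exists_finset_mem_unit (x : Kˣ) :
    ∃ S₀ : Finset (HeightOneSpectrum (𝓞 K)), x ∈ (S₀ : Set (HeightOneSpectrum (𝓞 K))).unit K := by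
  classical
  have h1 := HeightOneSpectrum.Support.finite (𝓞 K) (x : K)
  have h2 := HeightOneSpectrum.Support.finite (𝓞 K) ((x⁻¹ : Kˣ) : K)
  refine ⟨(h1.union h2).toFinset, ?_⟩
  rw [Bridge.mem_unit_iff]
  intro v hv
  rw [Bridge.isUnitAt_iff]
  simp only [Set.Finite.coe_toFinset, Set.mem_union, not_or, HeightOneSpectrum.Support,
    Set.mem_ofPred_eq, not_lt] at hv
  obtain ⟨hv1, hv2⟩ := hv
  refine le_antisymm hv1 ?_
  rw [Units.val_inv_eq_inv_val, map_inv₀] at hv2
  have hx0 : v.valuation K (x : K) ≠ 0 := (Valuation.ne_zero_iff _).2 x.ne_zero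
  by_contra hlt
  rw [not_le] at hlt
  have : 1 < (v.valuation K (x : K))⁻¹ := by
    rw [← one_lt_inv₀ (zero_lt_iff.2 hx0)] at hlt
    exact hlt
  exact absurd hv2 (not_le.2 this)

/-- the primes above `p` form a finite set -/
theorem exists_finset_over (p : ℕ) (hp : p ≠ 0) :
    ∃ S₀ : Finset (HeightOneSpectrum (𝓞 K)), ∀ v : HeightOneSpectrum (𝓞 K),
      (p : 𝓞 K) ∈ v.asIdeal → v ∈ S₀ := by
  classical
  have hI : Ideal.span {(p : 𝓞 K)} ≠ 0 := by
    rw [Ne, Ideal.zero_eq_bot, Ideal.span_singleton_eq_bot]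
    exact_mod_cast hp
  have h1 := Ideal.finite_factors hI
  refine ⟨h1.toFinset, fun v hv => ?_⟩
  rw [Set.Finite.mem_toFinset, Set.mem_ofPred_eq, Ideal.dvd_iff_le, Ideal.span_singleton_le_iff_mem]
  exact hv

/-- `prec p v = 1` when `v` does not lie over `p` -/
theorem prec_eq_one_of_notMem (p : ℕ) (v : HeightOneSpectrum (𝓞 K))
    (h : (p : 𝓞 K) ∉ v.asIdeal) : prec p v.asIdeal = 1 := by
  have h0 : ordP p v.asIdeal = 0 := by
    rw [ordP]
    apply multiplicity_eq_zero.2
    rw [Ideal.dvd_iff_le, Ideal.span_singleton_le_iff_mem]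
    exact h
  rw [prec, h0]
  simp

theorem unit_mono {S S' : Set (HeightOneSpectrum (𝓞 K))} (h : S ⊆ S') :
    S.unit K ≤ S'.unit K := by
  intro x hx
  rw [Bridge.mem_unit_iff] at hx ⊢
  intro v hv
  exact hx v (fun h' => hv (h h'))

variable (L : Type*) [Field L] [NumberField L] [Algebra K L]

/-- (ASM-3) local `p`-th powers at `S` go to norm classes -/
theorem phi_mem_normClasses_of_dvd {p : ℕ} (hdeg : Module.finrank K L = p)
    (S : Finset (HeightOneSpectrum (𝓞 K))) (x : Kˣ)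
    (h : ∀ v ∈ S, (p : ℤ) ∣ Multiplicative.toAdd (Bridge.ord v x)) :
    phi S x ∈ normClasses K L := by
  rw [phi_apply]
  refine Subgroup.prod_mem _ (fun v hv => ?_)
  obtain ⟨k, hk⟩ := h v hv
  rw [hk, zpow_mul, zpow_natCast]
  refine Subgroup.zpow_mem _ ?_ _
  rw [← hdeg]
  exact CR.mk0_pow_finrank_mem_normClasses K L _

end Fermat.Agent.S14.SI.Asm
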