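/-
T14 / SI-ASM (helper55): final count of the second inequality.
SKELETON: exact statements of the sub-lemmas (ASM-1..6) with `sorry`, and the proof of the main
theorem `index_normClasses_le'` from them + the SI leaf packages.  The sorries are replaced by
imports of `Asm/Principal.lean`, `Asm/SplitNorm.lean`, `Asm/LocalIndex.lean`, ... as they land.
-/
import Fermat.Agent.S14.SI.Asm.Defs
import Fermat.Agent.S14.SI.Asm.Small
import Fermat.Agent.S14.SI.Asm.Surj
import Fermat.Agent.S14.SI.Asm.SplitNormKL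
import Fermat.Agent.S14.SI.Asm.LocalIndex
import Fermat.Agent.S14.SI.Asm.Principal
import Fermat.Agent.S14.CR.NormTower
import Fermat.Agent.S14.SI.LocalCount
import Fermat.Agent.S14.SI.Approx
import Fermat.Agent.S14.SI.SUnits
import Fermat.Agent.S14.SI.Kummer
import Fermat.Agent.S14.SI.TSelect
import Fermat.Agent.S14.SI.KeyLemma

set_option autoImplicit false

open NumberField IsDedekindDomain nonZeroDivisors

namespace Fermat.Agent.S14.SI.Asm

variable {K : Type*} [Field K] [NumberField K]

/-- (ASM-1) principal ideals are trivial in the class group -/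
theorem phi_eq_one_of_mem_unit (S : Finset (HeightOneSpectrum (𝓞 K))) (x : Kˣ)
    (hx : x ∈ (S : Set (HeightOneSpectrum (𝓞 K))).unit K) : phi S x = 1 :=
  phi_eq_one_of_mem_unit' S x hx

variable (L : Type*) [Field L] [NumberField L] [Algebra K L]

/-- (ASM-4) a prime all of whose decomposition groups are trivial is a norm -/
theorem cls_mem_normClasses_of_split [IsGalois K L] (v : HeightOneSpectrum (𝓞 K))
    (h : ∀ P : Ideal (𝓞 L), P.IsPrime → P.under (𝓞 K) = v.asIdeal → ∀ τ : L ≃ₐ[K] L,
      (∀ z : 𝓞 L, z ∈ P → τ • z ∈ P) → τ = 1) :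
    cls v ∈ normClasses K L :=
  mk0_mem_normClasses_of_split_kl L v h

variable {L}

/-- (ASM-5) index of the local conditions -/
theorem index_calK {p : ℕ} (hp : p.Prime) (hp2 : p ≠ 2) (ζ : K) (hζ : IsPrimitiveRoot ζ p)
    (S : Finset (HeightOneSpectrum (𝓞 K)))
    (hSp : ∀ v : HeightOneSpectrum (𝓞 K), (p : 𝓞 K) ∈ v.asIdeal → v ∈ S) :
    (calK p S).index ≠ 0 ∧
      (calK p S).index ≤ p ^ (2 * S.card + 2 * InfinitePlace.nrComplexPlaces K) :=
  index_calK' hp hp2 ζ hζ S hSp

end Fermat.Agent.S14.SI.Asm
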