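/-
T14 / SI-ASM (helper55): the final count.  `index_normClasses_le'` from the SI leaf packages and the
sub-lemmas (ASM-1..6).
-/
import Fermat.Agent.S14.SI.Asm.Skeleton

set_option autoImplicit false

open NumberField IsDedekindDomain nonZeroDivisors Polynomial

namespace Fermat.Agent.S14.SI.Asm



theorem index_normClasses_le' (K L : Type*) [Field K] [NumberField K] [Field L] [NumberField L]
    [Algebra K L] {p : ℕ} (hp : p.Prime) (hp2 : p ≠ 2) [IsGalois K L]
    (hdeg : Module.finrank K L = p) (ζ : K) (hζ : IsPrimitiveRoot ζ p)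
    (hunr : UnramifiedEverywhere K L) : (normClasses K L).index ≤ p := by
  classical
  -- Kummer generator
  have hcard : Nat.card (L ≃ₐ[K] L) = p := by rw [IsGalois.card_aut_eq_finrank, hdeg]
  have : Fact p.Prime := ⟨hp⟩
  have : IsCyclic (L ≃ₐ[K] L) := isCyclic_of_prime_card hcard
  have hK : (primitiveRoots (Module.finrank K L) K).Nonempty :=
    ⟨ζ, by rw [hdeg, mem_primitiveRoots hp.pos]; exact hζ⟩
  obtain ⟨β, ⟨a, ha⟩, hβtop⟩ := exists_root_adjoin_eq_top_of_isCyclic K L hK
  have hirr : Irreducible (X ^ (Module.finrank K L) - C a) :=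
    irreducible_X_pow_sub_C_of_root_adjoin_eq_top ha.symm hβtop
  rw [hdeg] at ha hirr
  have ha0 : a ≠ 0 := by
    rintro rfl
    have h1 : (X ^ p - C (0 : K) : K[X]) = X ^ p := by simp
    rw [h1] at hirr
    have := hirr.isUnit_or_isUnit (a := X) (b := X ^ (p - 1)) (by
      rw [← pow_succ', Nat.sub_add_cancel hp.one_le])
    rcases this with h | h
    · exact Polynomial.not_isUnit_X h
    · have h3 : p - 1 ≠ 0 := by have := hp.two_le; omega
      exact Polynomial.not_isUnit_X (isUnit_of_dvd_unit (dvd_pow_self X h3) h)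
  set α : Kˣ := Units.mk0 a ha0 with hα
  have hβ : β ^ p = algebraMap K L α := by rw [hα, Units.val_mk0]; exact ha.symm
  have hαpow : ∀ y : Kˣ, y ^ p ≠ α := by
    intro y hy
    have hy' : (y : K) ^ p = a := by
      have := congrArg (fun u : Kˣ => (u : K)) hy
      simpa [hα] using this
    have hroot : (X ^ p - C a : K[X]).IsRoot (y : K) := by
      simp [hy']
    have hdeg1 := Polynomial.degree_eq_one_of_irreducible_of_root hirr hroot
    rw [Polynomial.degree_X_pow_sub_C hp.pos] at hdeg1
    have : (p : WithBot ℕ) = ((1 : ℕ) : WithBot ℕ) := by exact_mod_cast hdeg1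
    have h2 : p = 1 := by exact_mod_cast this
    exact hp.one_lt.ne' h2
  -- the set `S`
  obtain ⟨S₁, hS₁⟩ := exists_finset_mem_unit α
  obtain ⟨S₂, hS₂⟩ := exists_finset_over (K := K) p hp.ne_zero
  obtain ⟨S, hS₀S, hScl⟩ := exists_finset_generating_classGroup (S₁ ∪ S₂)
  have hSp : ∀ v : HeightOneSpectrum (𝓞 K), (p : 𝓞 K) ∈ v.asIdeal → v ∈ S := fun v hv =>
    hS₀S (Finset.mem_union_right _ (hS₂ v hv))
  have hαS : α ∈ (S : Set (HeightOneSpectrum (𝓞 K))).unit K := by
    refine unit_mono ?_ hS₁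
    intro v hv
    exact hS₀S (Finset.mem_union_left _ hv)
  -- the set `T`
  obtain ⟨T, hTS, hTcard, hTα, -, hTsurj⟩ := exists_T hp hp2 ζ hζ S hSp α hαS hαpow
  have hkey := key_lemma hp hp2 ζ hζ S T hTS hSp hScl hTsurj
  -- the subgroups
  set U : Subgroup Kˣ := ((S ∪ T : Finset (HeightOneSpectrum (𝓞 K))) :
    Set (HeightOneSpectrum (𝓞 K))).unit K with hU
  set H : Subgroup Kˣ := (normClasses K L).comap (phi S) with hH
  -- `calK ≤ H`
  have h1 : calK p S ≤ H := by
    intro x hx
    rw [mem_calK] at hx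
    rw [hH, Subgroup.mem_comap]
    refine phi_mem_normClasses_of_dvd L hdeg S x (fun v hv => ?_)
    have := Bridge.IsLocalPow.exists_isUnitAt (hx v hv)
    exact (Bridge.exists_isUnitAt_div_pow_iff_dvd v p x).1 this
  -- primes of `T` are norms
  have hTnorm : ∀ v ∈ T, cls v ∈ normClasses K L := by
    intro v hv
    have hvS : v ∉ S := fun h => (Finset.disjoint_left.1 hTS hv) h
    have hpv : (p : 𝓞 K) ∉ v.asIdeal := fun h => hvS (hSp v h)
    refine cls_mem_normClasses_of_split L v (fun P hP hPv τ hτ => ?_)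
    have hP0 : P ≠ ⊥ := by
      rintro rfl
      apply v.ne_bot
      rw [← hPv]
      exact Ideal.under_bot (𝓞 K) (𝓞 L)
    have := hP
    refine decomposition_trivial_of_isLocalPow hp hp2 ζ hζ α β hβ hβtop P hP0 ?_ τ hτ
    rw [hPv, prec_eq_one_of_notMem p v hpv]
    exact hTα v hv
  -- `U ≤ H`
  have h2 : U ≤ H := by
    intro x hx
    rw [hH, Subgroup.mem_comap]
    have h3 : phi (S ∪ T) x = 1 := phi_eq_one_of_mem_unit (S ∪ T) x hx
    have h4 : phi (S ∪ T) x = phi S x * phi T x := by
      rw [phi_apply, phi_apply, phi_apply, Finset.prod_union hTS.symm]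
    have h5 : phi S x = (phi T x)⁻¹ := by
      rw [h4] at h3
      exact eq_inv_of_mul_eq_one_left h3
    rw [h5]
    refine Subgroup.inv_mem _ ?_
    rw [phi_apply]
    exact Subgroup.prod_mem _ (fun v hv => Subgroup.zpow_mem _ (hTnorm v hv) _)
  -- index computations
  obtain ⟨hK0, hKle⟩ := index_calK hp hp2 ζ hζ S hSp
  have hrel : (calK p S).relIndex U =
      p ^ ((S ∪ T).card + InfinitePlace.nrComplexPlaces K) := by
    refine relIndex_of_key hp hp2 ζ hζ (S ∪ T) (calK p S) (fun y => ?_) (fun x hx hxK => ?_)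
    · rw [mem_calK]
      intro v _
      exact Bridge.isLocalPow_pow p v.asIdeal _ y
    · rw [mem_calK] at hxK
      refine hkey x ?_ hxK
      rw [← Finset.coe_union]
      exact hx
  have hsup : (calK p S).relIndex (calK p S ⊔ U) = (calK p S).relIndex U :=
    Subgroup.relIndex_sup_left U (calK p S)
  have hmul : (calK p S).relIndex (calK p S ⊔ U) * (calK p S ⊔ U).index = (calK p S).index :=
    Subgroup.relIndex_mul_index le_sup_left
  rw [hsup, hrel] at hmul
  have hcardU : (S ∪ T).card = S.card + T.card := Finset.card_union_of_disjoint hTS.symm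
  have hexp : (S ∪ T).card + InfinitePlace.nrComplexPlaces K + 1 =
      2 * S.card + 2 * InfinitePlace.nrComplexPlaces K := by
    rw [hcardU]; omega
  have hsupindex0 : (calK p S ⊔ U).index ≠ 0 := by
    intro h0
    rw [h0, mul_zero] at hmul
    exact hK0 hmul.symm
  have hsuple : (calK p S ⊔ U).index ≤ p := by
    have h6 : p ^ ((S ∪ T).card + InfinitePlace.nrComplexPlaces K) * (calK p S ⊔ U).index ≤
        p ^ ((S ∪ T).card + InfinitePlace.nrComplexPlaces K) * p := by
      rw [hmul, ← pow_succ, hexp]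
      exact hKle
    exact Nat.le_of_mul_le_mul_left h6 (pow_pos hp.pos _)
  have hHle : H.index ≤ (calK p S ⊔ U).index :=
    Nat.le_of_dvd (Nat.pos_of_ne_zero hsupindex0) (Subgroup.index_dvd_of_le (sup_le h1 h2))
  have hidx : H.index = (normClasses K L).index :=
    Subgroup.index_comap_of_surjective _ (phi_surjective S hScl)
  rw [← hidx]
  exact hHle.trans hsuple

end Fermat.Agent.S14.SI.Asm
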